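import Mathlib
import Fermat.Agent.LT.T6.H267.InstExt
import Fermat.Agent.LT.T6.H116.InstSplit

/-!
# Row LT, tower T7, leaf T7.L2.1.C2.4 `IotaC305`: LOCAL TOOLS (helper999), OFF-MAIN

Mathlib + `LT/T6/H267/InstExt.lean` (helper267) + `LT/T6/H116/InstSplit.lean` (helper116),
byte-identical copies.  ADDITIVE (new names only, suffix `999`).  No hole, nothing assumed.

* `continuous_of_valued_pow999`: a ring homomorphism of completions which raises the valuation
  to a positive power is continuous.
* `eq_of_eqOn_rat999`: two continuous maps on `K_v` which agree on `K` are equal.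
* `split_ram_inertia999`: in a Galois extension of prime degree a place with two places over
  it is unramified of residue degree one.
* `surjective_of_split999`: at such a place every ring homomorphism `i : K_v → K'_w` over
  `K → K'` which raises the valuation to a positive power is surjective.
* `mem_range_of_fixed999`: at a place which is fixed by the generator, the fixed points of the
  local automorphism are in the range of `i`.
-/

set_option autoImplicit false
set_option linter.unusedSectionVars false
set_option linter.unusedVariables false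
set_option linter.deprecated false

open IsDedekindDomain NumberField

namespace Fermat.Agent.LT.T7.H999

section Cont

variable {K₁ K₂ : Type} [Field K₁] [NumberField K₁] [Field K₂] [NumberField K₂]
  (v₁ : HeightOneSpectrum (𝓞 K₁)) (v₂ : HeightOneSpectrum (𝓞 K₂))

/-- A ring homomorphism of completions with `|i x| = |x| ^ e`, `e > 0`, is continuous. -/
theorem continuous_of_valued_pow999 (i : v₁.adicCompletion K₁ →+* v₂.adicCompletion K₂)
    (e : ℕ) (he : 0 < e) (h : ∀ x, Valued.v (i x) = Valued.v x ^ e) : Continuous i := by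
  refine continuous_of_continuousAt_zero i ?_
  rw [ContinuousAt, map_zero, (Valued.hasBasis_nhds_zero _ _).tendsto_iff
    (Valued.hasBasis_nhds_zero _ _)]
  intro γ _
  obtain ⟨z, hz⟩ := HeightOneSpectrum.valuedAdicCompletion_surjective K₁ v₁
    (min 1 (MonoidWithZeroHom.ValueGroup₀.embedding γ.val))
  have hγ0 : MonoidWithZeroHom.ValueGroup₀.embedding γ.val ≠ 0 := by
    simp
  have hz0 : Valued.v z ≠ 0 := by
    rw [hz]
    exact (lt_min zero_lt_one (zero_lt_iff.2 hγ0)).ne'
  refine ⟨Units.mk0 (Valued.v.restrict z) ?_, trivial, ?_⟩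
  · rw [Ne, ← MonoidWithZeroHom.ValueGroup₀.embedding_inj]
    simpa using hz0
  intro x hx
  simp only [Set.mem_ofPred_eq, Units.val_mk0] at hx ⊢
  rw [Valuation.restrict_lt_iff_lt_embedding] at hx ⊢
  rw [Valuation.embedding_restrict, hz] at hx
  rw [h x]
  have hx1 : Valued.v x < 1 := lt_of_lt_of_le hx (min_le_left _ _)
  have hx2 : Valued.v x < MonoidWithZeroHom.ValueGroup₀.embedding γ.val :=
    lt_of_lt_of_le hx (min_le_right _ _)
  calc Valued.v x ^ e ≤ Valued.v x ^ 1 := pow_le_pow_of_le_one zero_le' hx1.le he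
    _ = Valued.v x := pow_one _
    _ < _ := hx2

/-- Two continuous maps on `K_v` which agree on `K` are equal. -/
theorem eq_of_eqOn_rat999 {X : Type} [TopologicalSpace X] [T2Space X]
    (f g : v₁.adicCompletion K₁ → X) (hf : Continuous f) (hg : Continuous g)
    (h : ∀ k : K₁, f (algebraMap K₁ (v₁.adicCompletion K₁) k)
      = g (algebraMap K₁ (v₁.adicCompletion K₁) k)) : f = g :=
  (HeightOneSpectrum.denseRange_algebraMap K₁ v₁).equalizer hf hg (funext h)

end Cont

section Split

variable {K K' : Type} [Field K] [NumberField K] [Field K'] [NumberField K'] [Algebra K K']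
  [IsGalois K K']

/-- In a Galois extension of prime degree, a place `v` with two distinct places over it is
unramified of residue degree one at each of them. -/
theorem split_ram_inertia999 (hl : (Module.finrank K K').Prime)
    (v : HeightOneSpectrum (𝓞 K)) (w w' : HeightOneSpectrum (𝓞 K'))
    [hw : w.asIdeal.LiesOver v.asIdeal] [hw' : w'.asIdeal.LiesOver v.asIdeal] (hne : w ≠ w') :
    v.asIdeal.ramificationIdx' w.asIdeal = 1 ∧ v.asIdeal.inertiaDeg' w.asIdeal = 1 := by
  have : v.asIdeal.IsMaximal := v.isMaximal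
  have : w.asIdeal.IsMaximal := w.isMaximal
  have hfund := Ideal.ncard_primesOver_mul_ramificationIdxIn_mul_inertiaDegIn v.asIdeal (𝓞 K')
    (K' ≃ₐ[K] K')
  have hcardG : Nat.card (K' ≃ₐ[K] K') = Module.finrank K K' :=
    IsGalois.card_aut_eq_finrank K K'
  rw [hcardG] at hfund
  have hfin : (Ideal.primesOver v.asIdeal (𝓞 K')).Finite :=
    Set.toFinite _
  have h2 : 1 < (Ideal.primesOver v.asIdeal (𝓞 K')).ncard := by
    rw [Set.one_lt_ncard hfin]
    refine ⟨w.asIdeal, ⟨w.isPrime, hw⟩, w'.asIdeal, ⟨w'.isPrime, hw'⟩, ?_⟩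
    intro h
    exact hne (HeightOneSpectrum.ext h)
  have hdvd : (Ideal.primesOver v.asIdeal (𝓞 K')).ncard ∣ Module.finrank K K' :=
    Dvd.intro _ hfund
  have hcard : (Ideal.primesOver v.asIdeal (𝓞 K')).ncard = Module.finrank K K' := by
    rcases (Nat.dvd_prime hl).1 hdvd with h | h
    · omega
    · exact h
  rw [hcard] at hfund
  have hef : Ideal.ramificationIdxIn v.asIdeal (𝓞 K') * Ideal.inertiaDegIn v.asIdeal (𝓞 K')
      = 1 := by
    have hpos : 0 < Module.finrank K K' := hl.pos
    exact Nat.eq_of_mul_eq_mul_left hpos (by rw [hfund, mul_one])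
  obtain ⟨he, hf⟩ := mul_eq_one.1 hef
  rw [Ideal.ramificationIdxIn_eq_ramificationIdx v.asIdeal w.asIdeal (K' ≃ₐ[K] K')] at he
  rw [Ideal.inertiaDegIn_eq_inertiaDeg v.asIdeal w.asIdeal (K' ≃ₐ[K] K')] at hf
  refine ⟨?_, ?_⟩
  · rw [Ideal.ramificationIdx'_eq_ramificationIdx v.asIdeal w.asIdeal v.ne_bot]
    exact he
  · rw [Ideal.inertiaDeg'_eq_inertiaDeg v.asIdeal w.asIdeal]
    exact hf

theorem mem_iff_of_liesOver999 (v : HeightOneSpectrum (𝓞 K)) (w : HeightOneSpectrum (𝓞 K'))
    [hw : w.asIdeal.LiesOver v.asIdeal] (x : 𝓞 K) :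
    x ∈ v.asIdeal ↔ algebraMap (𝓞 K) (𝓞 K') x ∈ w.asIdeal := by
  rw [hw.over, Ideal.under_def, Ideal.mem_comap]

/-- At a split place every ring homomorphism `K_v → K'_w` over `K → K'` which raises the
valuation to a positive power is surjective. -/
theorem surjective_of_split999 (hl : (Module.finrank K K').Prime)
    (v : HeightOneSpectrum (𝓞 K)) (w w' : HeightOneSpectrum (𝓞 K'))
    [hw : w.asIdeal.LiesOver v.asIdeal] [hw' : w'.asIdeal.LiesOver v.asIdeal] (hne : w ≠ w')
    (i : v.adicCompletion K →+* w.adicCompletion K') (e : ℕ) (he : 0 < e)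
    (hi : ∀ x : K, i (algebraMap K (v.adicCompletion K) x)
      = algebraMap K' (w.adicCompletion K') (algebraMap K K' x))
    (hv : ∀ x : v.adicCompletion K, Valued.v (i x) = Valued.v x ^ e) :
    Function.Surjective i := by
  obtain ⟨h1, h2⟩ := split_ram_inertia999 hl v w w' hne
  have hvw := mem_iff_of_liesOver999 v w
  have hN : Ideal.absNorm w.asIdeal = Ideal.absNorm v.asIdeal := by
    rw [T6.H267.absNorm_eq_pow_inertia v w, h2, pow_one]
  have hπ : ∃ x : 𝓞 K, x ∈ v.asIdeal ∧ algebraMap (𝓞 K) (𝓞 K') x ∉ w.asIdeal ^ 2 := by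
    by_contra hcon
    push Not at hcon
    have hle : Ideal.map (algebraMap (𝓞 K) (𝓞 K')) v.asIdeal ≤ w.asIdeal := by
      rw [Ideal.map_le_iff_le_comap]
      intro x hx
      exact (hvw x).1 hx
    have hle2 : Ideal.map (algebraMap (𝓞 K) (𝓞 K')) v.asIdeal ≤ w.asIdeal ^ 2 := by
      rw [Ideal.map_le_iff_le_comap]
      intro x hx
      exact hcon x hx
    exact (Ideal.ramificationIdx'_ne_one_iff hle).2 hle2 h1
  obtain ⟨i', hi', hv'⟩ := T6.H116.instSplitC_h116 K K' v w hvw hN hπ
  have hc : Continuous i := continuous_of_valued_pow999 v w i e he hv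
  have hc' : Continuous (i' : v.adicCompletion K → w.adicCompletion K') :=
    continuous_of_valued_pow999 v w (i' : v.adicCompletion K →+* w.adicCompletion K') 1
      one_pos (fun x => by rw [pow_one]; exact hv' x)
  have heq : (i : v.adicCompletion K → w.adicCompletion K') = i' :=
    eq_of_eqOn_rat999 v _ _ hc hc' (fun k => by rw [hi k]; exact (hi' k).symm)
  intro y
  obtain ⟨x, hx⟩ := i'.surjective y
  exact ⟨x, by rw [congrFun heq x]; exact hx⟩

/-- At a place which is fixed by the generator `s` of the Galois group, the fixed points of a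
local automorphism `sw` over `s` which preserves the valuation are in the range of `i`. -/
theorem mem_range_of_fixed999 (s : K' ≃ₐ[K] K')
    (hgen : ∀ t : K' ≃ₐ[K] K', t ∈ Subgroup.zpowers s)
    (v : HeightOneSpectrum (𝓞 K)) (w : HeightOneSpectrum (𝓞 K'))
    [hw : w.asIdeal.LiesOver v.asIdeal]
    (i : v.adicCompletion K →+* w.adicCompletion K') (e : ℕ) (he : 0 < e)
    (hi : ∀ x : K, i (algebraMap K (v.adicCompletion K) x)
      = algebraMap K' (w.adicCompletion K') (algebraMap K K' x))
    (hv : ∀ x : v.adicCompletion K, Valued.v (i x) = Valued.v x ^ e)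
    (sw : w.adicCompletion K' ≃+* w.adicCompletion K')
    (hs : ∀ y : K', sw (algebraMap K' (w.adicCompletion K') y)
      = algebraMap K' (w.adicCompletion K') (s y))
    (hsv : ∀ x : w.adicCompletion K', Valued.v (sw x) = Valued.v x)
    (y : w.adicCompletion K') (hy : sw y = y) : ∃ x : v.adicCompletion K, i x = y := by
  have hσ : ∀ y : K', w.valuation K' ((s : K' ≃+* K') y) = w.valuation K' y := by
    intro y
    have h1 := hsv (algebraMap K' (w.adicCompletion K') y)
    rw [hs y, T6.H267.valued_algebraMap, T6.H267.valued_algebraMap] at h1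
    exact h1
  have hcs : Continuous (sw : w.adicCompletion K' → w.adicCompletion K') :=
    continuous_of_valued_pow999 w w (sw : w.adicCompletion K' →+* w.adicCompletion K') 1
      one_pos (fun x => by rw [pow_one]; exact hsv x)
  have heqs : (T6.H267.locAut w (s : K' ≃+* K') hσ : w.adicCompletion K' → w.adicCompletion K')
      = sw :=
    eq_of_eqOn_rat999 w _ _ (T6.H267.continuous_locAut w _ hσ) hcs (fun k => by
      rw [T6.H267.locAut_algebraMap, hs k]
      rfl)
  have hci : Continuous i := continuous_of_valued_pow999 v w i e he hv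
  have heqi : (T6.H267.locIncl v w : v.adicCompletion K → w.adicCompletion K') = i :=
    eq_of_eqOn_rat999 v _ _ (T6.H267.continuous_locIncl v w) hci (fun k => by
      rw [T6.H267.locIncl_algebraMap, hi k])
  have hy' : T6.H267.locAut w (s : K' ≃+* K') hσ y = y := by
    rw [congrFun heqs y]
    exact hy
  obtain ⟨x, hx⟩ := T6.H267.fixed_mem_range s v w hσ hgen y hy'
  exact ⟨x, by rw [← congrFun heqi x]; exact hx⟩

end Split

end Fermat.Agent.LT.T7.H999
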