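import Mathlib
import Fermat.Agent.LT.T7.H253.IotaCut
import Fermat.Agent.LT.T7.H999.IotaLocal

/-!
# Row LT, tower T7, leaf T7.L2.1.C2.4 `IotaC305`: THE PLACES (helper999), OFF-MAIN

Vocabulary: `LT/T7/H253/IotaCut.lean` (helper253, byte-identical copy) and its imports.
ADDITIVE (new names only, suffix `999`).  No hole, nothing assumed.

* `galGen999`: the generator `σ` of the data as an element of `Gal(K'/K)`; it generates.
* `PlaceOver` and `Ideal.LiesOver`; every place of `K` has a place of `K'` over it.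
* `sigPlace999`: the action of a ring automorphism on the finite places; `T5.PlaceRel`.
* `exists_iterate_sigPlace999`: two places over the same place are related by a power of `σ`.
-/

set_option autoImplicit false
set_option linter.unusedSectionVars false
set_option linter.unusedVariables false
set_option linter.deprecated false
set_option linter.style.haveILetI false

open AutomorphicForm IsDedekindDomain NumberField
open scoped Pointwise

namespace Fermat.Agent.LT.T7.H999

open Fermat.Agent.LT.H556 Fermat.Agent.LT.H556.A0 Fermat.Agent.LT.T7 Fermat.Agent.LT.T7.H305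
  Fermat.Agent.LT.T7.H253

variable {K K' : Type} [Field K] [NumberField K] [Field K'] [NumberField K'] [Algebra K K']

/-! ## 1. The generator -/

/-- The generator of the data fixes `K`. -/
theorem sigma_algebraMap999 {D : CompData K K'} (hD : IsCompData D) (x : K) :
    D.s.σ (algebraMap K K' x) = algebraMap K K' x :=
  (hD.cyc.fixed _).1 ((hD.base _).2 ⟨x, rfl⟩)

/-- The generator of the data as an element of the Galois group. -/
noncomputable def galGen999 (D : CompData K K') (hD : IsCompData D) : K' ≃ₐ[K] K' :=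
  AlgEquiv.ofRingEquiv (f := D.s.σ) (sigma_algebraMap999 hD)

theorem galGen_apply999 (D : CompData K K') (hD : IsCompData D) (y : K') :
    galGen999 D hD y = D.s.σ y := rfl

theorem galGen_coe999 (D : CompData K K') (hD : IsCompData D) :
    ((galGen999 D hD : K' ≃ₐ[K] K') : K' ≃+* K') = D.s.σ :=
  RingEquiv.ext fun _ => rfl

theorem galGen_ne_one999 (D : CompData K K') (hD : IsCompData D) (hcyc : IsCycExt K K' D.l) :
    galGen999 D hD ≠ 1 := by
  intro h
  obtain ⟨x, hx⟩ := hD.cyc.faithful 1 one_pos hcyc.prime.one_lt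
  apply hx
  rw [pow_one]
  have := congrArg (fun t : K' ≃ₐ[K] K' => t x) h
  exact this

/-- The generator of the data generates the Galois group. -/
theorem galGen_gen999 (D : CompData K K') (hD : IsCompData D) (hcyc : IsCycExt K K' D.l)
    (t : K' ≃ₐ[K] K') : t ∈ Subgroup.zpowers (galGen999 D hD) := by
  haveI := hcyc.galois
  haveI : Fact D.l.Prime := ⟨hcyc.prime⟩
  have hcard : Nat.card (K' ≃ₐ[K] K') = D.l := by
    rw [IsGalois.card_aut_eq_finrank K K', hcyc.degree]
  exact mem_zpowers_of_prime_card hcard (galGen_ne_one999 D hD hcyc)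

/-- Every element of the Galois group is a power (with natural exponent) of the generator. -/
theorem exists_pow_galGen999 (D : CompData K K') (hD : IsCompData D)
    (hcyc : IsCycExt K K' D.l) (t : K' ≃ₐ[K] K') : ∃ j : ℕ, galGen999 D hD ^ j = t := by
  haveI := hcyc.galois
  have h := galGen_gen999 D hD hcyc t
  rw [← mem_powers_iff_mem_zpowers] at h
  exact h

/-! ## 2. Places over a place -/

theorem coe_algebraMap_int999 (x : 𝓞 K) :
    ((algebraMap (𝓞 K) (𝓞 K') x : 𝓞 K') : K') = algebraMap K K' (x : K) := rfl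

theorem mem_iff_of_placeOver999 {v : HeightOneSpectrum (𝓞 K)} {w : HeightOneSpectrum (𝓞 K')}
    (h : PlaceOver K K' v w) (x : 𝓞 K) :
    x ∈ v.asIdeal ↔ algebraMap (𝓞 K) (𝓞 K') x ∈ w.asIdeal :=
  h x _ (coe_algebraMap_int999 x)

theorem liesOver_of_placeOver999 {v : HeightOneSpectrum (𝓞 K)} {w : HeightOneSpectrum (𝓞 K')}
    (h : PlaceOver K K' v w) : w.asIdeal.LiesOver v.asIdeal :=
  T6.H267.liesOver_of_iff v w (mem_iff_of_placeOver999 h)

theorem placeOver_of_liesOver999 (v : HeightOneSpectrum (𝓞 K)) (w : HeightOneSpectrum (𝓞 K'))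
    [hw : w.asIdeal.LiesOver v.asIdeal] : PlaceOver K K' v w := by
  intro x y hy
  have hy' : y = algebraMap (𝓞 K) (𝓞 K') x := RingOfIntegers.ext hy
  rw [hy', hw.over, Ideal.under_def, Ideal.mem_comap]

/-- The place under a place. -/
noncomputable def underPlace999 (w : HeightOneSpectrum (𝓞 K')) : HeightOneSpectrum (𝓞 K) :=
  w.under (𝓞 K)

theorem placeOver_underPlace999 (w : HeightOneSpectrum (𝓞 K')) :
    PlaceOver K K' (underPlace999 (K := K) w) w := by
  haveI : w.asIdeal.LiesOver (underPlace999 (K := K) w).asIdeal := ⟨rfl⟩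
  exact placeOver_of_liesOver999 _ w

theorem eq_underPlace_of_placeOver999 {v : HeightOneSpectrum (𝓞 K)}
    {w : HeightOneSpectrum (𝓞 K')} (h : PlaceOver K K' v w) : v = underPlace999 w := by
  apply HeightOneSpectrum.ext
  exact (liesOver_of_placeOver999 h).over

/-- Every place of `K` has a place of `K'` over it. -/
theorem exists_placeOver999 (v : HeightOneSpectrum (𝓞 K)) :
    ∃ w : HeightOneSpectrum (𝓞 K'), PlaceOver K K' v w := by
  have : v.asIdeal.IsMaximal := v.isMaximal
  obtain ⟨⟨P, hP, hPo⟩⟩ := (inferInstance : Nonempty (Ideal.primesOver v.asIdeal (𝓞 K')))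
  have hne : P ≠ ⊥ := by
    rintro rfl
    apply v.ne_bot
    rw [hPo.over, eq_bot_iff]
    intro x hx
    rw [Ideal.under_def, Ideal.mem_comap, Ideal.mem_bot] at hx
    rw [Ideal.mem_bot]
    exact FaithfulSMul.algebraMap_injective (𝓞 K) (𝓞 K') (by rw [hx, map_zero])
  haveI : (⟨P, hP, hne⟩ : HeightOneSpectrum (𝓞 K')).asIdeal.LiesOver v.asIdeal := hPo
  exact ⟨⟨P, hP, hne⟩, placeOver_of_liesOver999 v _⟩

/-! ## 3. The action of an automorphism on the places -/

/-- The image of the place `w` under the ring automorphism `σ`. -/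
noncomputable def sigPlace999 (σ : K' ≃+* K') (w : HeightOneSpectrum (𝓞 K')) :
    HeightOneSpectrum (𝓞 K') where
  asIdeal := Ideal.map (RingOfIntegers.mapRingEquiv σ) w.asIdeal
  isPrime := Ideal.map_isPrime_of_equiv _
  ne_bot := by
    intro h
    apply w.ne_bot
    rw [eq_bot_iff]
    intro y hy
    have h1 : RingOfIntegers.mapRingEquiv σ y
        ∈ Ideal.map (RingOfIntegers.mapRingEquiv σ) w.asIdeal := Ideal.mem_map_of_mem _ hy
    rw [h, Ideal.mem_bot] at h1
    rw [Ideal.mem_bot]
    exact (RingOfIntegers.mapRingEquiv σ).injective (by rw [h1, map_zero])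

theorem placeRel_sigPlace999 (s : T5.AdelicAut K') (w : HeightOneSpectrum (𝓞 K')) :
    T5.PlaceRel s w (sigPlace999 s.σ w) := rfl

theorem eq_sigPlace_of_placeRel999 {s : T5.AdelicAut K'} {w w' : HeightOneSpectrum (𝓞 K')}
    (h : T5.PlaceRel s w w') : w' = sigPlace999 s.σ w :=
  HeightOneSpectrum.ext h

theorem mem_sigPlace_iff999 (σ : K' ≃+* K') (w : HeightOneSpectrum (𝓞 K')) (y : 𝓞 K') :
    y ∈ (sigPlace999 σ w).asIdeal ↔ (RingOfIntegers.mapRingEquiv σ).symm y ∈ w.asIdeal := by
  show y ∈ Ideal.map (RingOfIntegers.mapRingEquiv σ) w.asIdeal ↔ _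
  constructor
  · intro hy
    obtain ⟨z, hz, rfl⟩ := (Ideal.mem_map_of_equiv _ _).1 hy
    rwa [RingEquiv.symm_apply_apply]
  · intro hy
    have := Ideal.mem_map_of_mem (RingOfIntegers.mapRingEquiv σ) hy
    rwa [RingEquiv.apply_symm_apply] at this

theorem sigPlace_symm999 (σ : K' ≃+* K') (w : HeightOneSpectrum (𝓞 K')) :
    sigPlace999 σ (sigPlace999 σ.symm w) = w := by
  apply HeightOneSpectrum.ext
  ext y
  rw [mem_sigPlace_iff999, mem_sigPlace_iff999]
  have : (RingOfIntegers.mapRingEquiv σ.symm).symm ((RingOfIntegers.mapRingEquiv σ).symm y) = y := by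
    apply RingOfIntegers.ext
    show σ.symm.symm (σ.symm (y : K')) = y
    simp
  rw [this]

/-- If `σ` fixes `K`, the image of a place over `v` is over `v`. -/
theorem placeOver_sigPlace999 (σ : K' ≃+* K')
    (hσ : ∀ x : K, σ (algebraMap K K' x) = algebraMap K K' x)
    {v : HeightOneSpectrum (𝓞 K)} {w : HeightOneSpectrum (𝓞 K')} (h : PlaceOver K K' v w) :
    PlaceOver K K' v (sigPlace999 σ w) := by
  intro x y hy
  rw [mem_sigPlace_iff999]
  refine h x _ ?_
  show σ.symm (y : K') = algebraMap K K' (x : K)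
  rw [hy, RingEquiv.symm_apply_eq, hσ]

/-- The action of the Galois group on the ideals is the action on the places. -/
theorem smul_asIdeal999 (t : K' ≃ₐ[K] K') (w : HeightOneSpectrum (𝓞 K')) :
    t • w.asIdeal = (sigPlace999 (t : K' ≃+* K') w).asIdeal := rfl

theorem sigPlace_mul999 (t t' : K' ≃ₐ[K] K') (w : HeightOneSpectrum (𝓞 K')) :
    sigPlace999 ((t * t' : K' ≃ₐ[K] K') : K' ≃+* K') w
      = sigPlace999 (t : K' ≃+* K') (sigPlace999 (t' : K' ≃+* K') w) := by
  apply HeightOneSpectrum.ext
  rw [← smul_asIdeal999, ← smul_asIdeal999, ← smul_asIdeal999, mul_smul]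

theorem sigPlace_pow999 (t : K' ≃ₐ[K] K') (j : ℕ) (w : HeightOneSpectrum (𝓞 K')) :
    sigPlace999 ((t ^ j : K' ≃ₐ[K] K') : K' ≃+* K') w
      = (sigPlace999 (t : K' ≃+* K'))^[j] w := by
  induction j with
  | zero =>
    rw [pow_zero, Function.iterate_zero, id]
    apply HeightOneSpectrum.ext
    rw [← smul_asIdeal999, one_smul]
  | succ j ih =>
    rw [pow_succ', sigPlace_mul999, ih, Function.iterate_succ_apply']

/-- **Transitivity**: two places over the same place are related by a power of the
generator. -/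
theorem exists_iterate_sigPlace999 (D : CompData K K') (hD : IsCompData D)
    (hcyc : IsCycExt K K' D.l) {v : HeightOneSpectrum (𝓞 K)} {w w' : HeightOneSpectrum (𝓞 K')}
    (h : PlaceOver K K' v w) (h' : PlaceOver K K' v w') :
    ∃ j : ℕ, w' = (sigPlace999 D.s.σ)^[j] w := by
  haveI := hcyc.galois
  haveI := liesOver_of_placeOver999 h
  haveI := liesOver_of_placeOver999 h'
  have : v.asIdeal.IsMaximal := v.isMaximal
  obtain ⟨t, ht⟩ := Ideal.exists_smul_eq_of_isGaloisGroup v.asIdeal w.asIdeal w'.asIdeal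
    (K' ≃ₐ[K] K')
  obtain ⟨j, rfl⟩ := exists_pow_galGen999 D hD hcyc t
  refine ⟨j, ?_⟩
  have h1 : w' = sigPlace999 ((galGen999 D hD ^ j : K' ≃ₐ[K] K') : K' ≃+* K') w :=
    HeightOneSpectrum.ext ht.symm
  rw [h1, sigPlace_pow999, galGen_coe999]

end Fermat.Agent.LT.T7.H999
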