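import Mathlib
import Fermat.Agent.LT.T7.H999.IotaPlaces

/-!
# Row LT, tower T7: ENUMERATION OF THE PLACES OVER A SPLIT PLACE, GENERAL FORM (helper999)

OFF-MAIN.  Complete proof, nothing assumed.  ADDITIVE (new names only, suffix `999`).

    exists_enum999 : IsCompData D → IsCycExt K K' D.l →
        (two different places of `K'` over `v`) →
        ∃ w i, (w j over v) ∧ (w j = σ(w (j+1))) ∧ (w j ≠ w 0 for 0 < j < l) ∧
          (i j : K_v ≃ K'_{w j} extends K → K') ∧ (i j preserves the valuation)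

NO hypothesis of non-ramification: `e f g = l`, `g ≥ 2`, `l` prime gives `e = f = 1`
(`split_ram_inertia999`), and `e = 1` gives an element of `v` which is not in `w²`.  Serves
`H311.EnumExistsC311` (cubic step) and `FUQ514.SplitEnumExQC514` (quadratic step over `ℚ`).
-/

set_option autoImplicit false
set_option linter.deprecated false
set_option linter.style.haveILetI false
set_option linter.unusedVariables false
set_option linter.unusedSectionVars false

open AutomorphicForm IsDedekindDomain NumberField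

namespace Fermat.Agent.LT.T7.H999

open Fermat.Agent.LT.H556 Fermat.Agent.LT.H556.A0 Fermat.Agent.LT.T7 Fermat.Agent.LT.T7.H305

variable {K K' : Type} [Field K] [NumberField K] [Field K'] [NumberField K'] [Algebra K K']

/-- The inverse of the generator fixes `K`. -/
theorem sigma_symm_algebraMapG999 {D : CompData K K'} (hD : IsCompData D) (x : K) :
    D.s.σ.symm (algebraMap K K' x) = algebraMap K K' x := by
  rw [RingEquiv.symm_apply_eq, sigma_algebraMap999 hD]

/-- The places `σ⁻ʲ(w)` are over `v`. -/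
theorem placeOver_iterate_symmG999 {D : CompData K K'} (hD : IsCompData D)
    {v : HeightOneSpectrum (𝓞 K)} {w : HeightOneSpectrum (𝓞 K')} (h : PlaceOver K K' v w)
    (j : ℕ) : PlaceOver K K' v ((sigPlace999 D.s.σ.symm)^[j] w) := by
  induction j with
  | zero => exact h
  | succ j ih =>
    rw [Function.iterate_succ_apply']
    exact placeOver_sigPlace999 D.s.σ.symm (sigma_symm_algebraMapG999 hD) ih

/-- `σʲ(σ⁻ʲ(w)) = w`. -/
theorem iterate_sig_iterate_symmG999 (σ : K' ≃+* K') (w : HeightOneSpectrum (𝓞 K')) (j : ℕ) :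
    (sigPlace999 σ)^[j] ((sigPlace999 σ.symm)^[j] w) = w := by
  have hl : Function.LeftInverse (sigPlace999 σ) (sigPlace999 σ.symm) :=
    fun w' => sigPlace_symm999 σ w'
  exact (hl.iterate j) w

/-- A power of the generator with exponent `0 < j < l` which fixes a place over `v` forces ONE
place over `v`. -/
theorem eq_of_iterate_fixedG999 (D : CompData K K') (hD : IsCompData D)
    (hcyc : IsCycExt K K' D.l) {v : HeightOneSpectrum (𝓞 K)}
    {w w' : HeightOneSpectrum (𝓞 K')} (h : PlaceOver K K' v w) (h' : PlaceOver K K' v w')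
    (j : ℕ) (hj0 : 0 < j) (hjl : j < D.l) (hfix : (sigPlace999 D.s.σ)^[j] w = w) :
    w' = w := by
  haveI := hcyc.galois
  haveI := liesOver_of_placeOver999 h
  haveI := liesOver_of_placeOver999 h'
  haveI : Fact D.l.Prime := ⟨hcyc.prime⟩
  have hmax : v.asIdeal.IsMaximal := v.isMaximal
  set t : K' ≃ₐ[K] K' := galGen999 D hD ^ j with ht
  have hne : t ≠ 1 := by
    intro h1
    obtain ⟨x, hx⟩ := hD.cyc.faithful j hj0 hjl
    apply hx
    have h2 := congrArg (fun u : K' ≃ₐ[K] K' => u x) h1
    have h3 : ∀ (n : ℕ) (y : K'), (galGen999 D hD ^ n) y = (D.s.σ ^ n) y := by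
      intro n
      induction n with
      | zero => intro y; rfl
      | succ n ih =>
        intro y
        rw [pow_succ, pow_succ]
        show (galGen999 D hD ^ n) (galGen999 D hD y) = (D.s.σ ^ n) (D.s.σ y)
        rw [ih]
        rfl
    have h4 : t x = x := h2
    rw [ht, h3] at h4
    exact h4
  have htw : sigPlace999 (t : K' ≃+* K') w = w := by
    rw [ht, sigPlace_pow999, galGen_coe999]
    exact hfix
  have hcard : Nat.card (K' ≃ₐ[K] K') = D.l := by
    rw [IsGalois.card_aut_eq_finrank K K', hcyc.degree]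
  obtain ⟨g, hg⟩ := Ideal.exists_smul_eq_of_isGaloisGroup v.asIdeal w.asIdeal w'.asIdeal
    (K' ≃ₐ[K] K')
  have hgt : g ∈ Subgroup.zpowers t := mem_zpowers_of_prime_card hcard hne
  rw [← mem_powers_iff_mem_zpowers] at hgt
  obtain ⟨n, rfl⟩ := hgt
  have h1 : w' = sigPlace999 ((t ^ n : K' ≃ₐ[K] K') : K' ≃+* K') w :=
    HeightOneSpectrum.ext hg.symm
  rw [h1, sigPlace_pow999]
  exact Function.iterate_fixed htw n

/-- At a split place of a Galois extension of prime degree the completions are isomorphic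
(no hypothesis of non-ramification). -/
theorem exists_iso_of_split999 [IsGalois K K'] (hl : (Module.finrank K K').Prime)
    (v : HeightOneSpectrum (𝓞 K)) (w w' : HeightOneSpectrum (𝓞 K'))
    (hw : PlaceOver K K' v w) (hw' : PlaceOver K K' v w') (hne : w ≠ w') :
    ∃ i : v.adicCompletion K ≃+* w.adicCompletion K',
      (∀ x : K, i (algebraMap K (v.adicCompletion K) x)
        = algebraMap K' (w.adicCompletion K') (algebraMap K K' x)) ∧
      ∀ x : v.adicCompletion K, Valued.v (i x) = Valued.v x := by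
  haveI := liesOver_of_placeOver999 hw
  haveI := liesOver_of_placeOver999 hw'
  obtain ⟨h1, h2⟩ := split_ram_inertia999 hl v w w' hne
  have hvw := mem_iff_of_liesOver999 v w
  have hN : Ideal.absNorm w.asIdeal = Ideal.absNorm v.asIdeal := by
    rw [T6.H267.absNorm_eq_pow_inertia v w, h2, pow_one]
  have hπ : ∃ x : 𝓞 K, x ∈ v.asIdeal ∧ algebraMap (𝓞 K) (𝓞 K') x ∉ w.asIdeal ^ 2 := by
    by_contra hcon
    push Not at hcon
    have hle : Ideal.map (algebraMap (𝓞 K) (𝓞 K')) v.asIdeal ≤ w.asIdeal := by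
      rw [Ideal.map_le_iff_le_comap]
      intro x hx
      exact (hvw x).1 hx
    have hle2 : Ideal.map (algebraMap (𝓞 K) (𝓞 K')) v.asIdeal ≤ w.asIdeal ^ 2 := by
      rw [Ideal.map_le_iff_le_comap]
      intro x hx
      exact hcon x hx
    exact (Ideal.ramificationIdx'_ne_one_iff hle).2 hle2 h1
  exact T6.H116.instSplitC_h116 K K' v w hvw hN hπ

/-- **THE ENUMERATION OF THE PLACES OVER A SPLIT PLACE**, general form. -/
theorem exists_enum999 (D : CompData K K') (hD : IsCompData D) (hcyc : IsCycExt K K' D.l)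
    (v : HeightOneSpectrum (𝓞 K))
    (hex : ∃ w₁ w₂ : HeightOneSpectrum (𝓞 K'),
      PlaceOver K K' v w₁ ∧ PlaceOver K K' v w₂ ∧ w₁ ≠ w₂) :
    ∃ (w : ℕ → HeightOneSpectrum (𝓞 K'))
      (i : ∀ j : ℕ, v.adicCompletion K ≃+* (w j).adicCompletion K'),
      (∀ j : ℕ, PlaceOver K K' v (w j)) ∧ (∀ j : ℕ, T5.PlaceRel D.s (w (j + 1)) (w j)) ∧
      (∀ j : ℕ, 0 < j → j < D.l → w j ≠ w 0) ∧
      (∀ (j : ℕ) (x : K), i j (algebraMap K (v.adicCompletion K) x)
        = algebraMap K' ((w j).adicCompletion K') (algebraMap K K' x)) ∧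
      (∀ (j : ℕ) (x : v.adicCompletion K), Valued.v (i j x) = Valued.v x) := by
  obtain ⟨w₁, w₂, hw₁, hw₂, hne⟩ := hex
  haveI := hcyc.galois
  have hprime : (Module.finrank K K').Prime := by
    rw [hcyc.degree]
    exact hcyc.prime
  have hover : ∀ j : ℕ, PlaceOver K K' v ((sigPlace999 D.s.σ.symm)^[j] w₁) :=
    fun j => placeOver_iterate_symmG999 hD hw₁ j
  have hiso : ∀ w : HeightOneSpectrum (𝓞 K'), PlaceOver K K' v w →
      ∃ i : v.adicCompletion K ≃+* w.adicCompletion K',
        (∀ x : K, i (algebraMap K (v.adicCompletion K) x)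
          = algebraMap K' (w.adicCompletion K') (algebraMap K K' x)) ∧
        ∀ x : v.adicCompletion K, Valued.v (i x) = Valued.v x := by
    intro w hw
    obtain ⟨w', hw', hww'⟩ : ∃ w' : HeightOneSpectrum (𝓞 K'), PlaceOver K K' v w' ∧ w ≠ w' := by
      by_cases h : w = w₁
      · exact ⟨w₂, hw₂, by rw [h]; exact hne⟩
      · exact ⟨w₁, hw₁, h⟩
    exact exists_iso_of_split999 hprime v w w' hw hw' hww'
  choose i hi hiv using fun j : ℕ => hiso _ (hover j)
  refine ⟨fun j => (sigPlace999 D.s.σ.symm)^[j] w₁, i, hover, ?_, ?_, hi, hiv⟩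
  · intro j
    have h : sigPlace999 D.s.σ ((sigPlace999 D.s.σ.symm)^[j + 1] w₁)
        = (sigPlace999 D.s.σ.symm)^[j] w₁ := by
      rw [Function.iterate_succ_apply']
      exact sigPlace_symm999 _ _
    have h0 := placeRel_sigPlace999 D.s ((sigPlace999 D.s.σ.symm)^[j + 1] w₁)
    rw [h] at h0
    exact h0
  · intro j hj0 hjl heq
    have heq' : (sigPlace999 D.s.σ.symm)^[j] w₁ = w₁ := heq
    have hfix : (sigPlace999 D.s.σ)^[j] w₁ = w₁ := by
      have := iterate_sig_iterate_symmG999 D.s.σ w₁ j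
      rw [heq'] at this
      exact this
    exact hne (eq_of_iterate_fixedG999 D hD hcyc hw₁ hw₂ j hj0 hjl hfix).symm

end Fermat.Agent.LT.T7.H999
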