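import Mathlib
import Fermat.Agent.LT.T7.H341.UpDatSpec
import Fermat.Agent.LT.T7.H558.SigmaLoc
import Fermat.Agent.LT.T7.H999.EnumCore

/-!
# Row LT, tower T7, leaf UD.2 `UD341.UpSplitC341` (cut of helper341 of `H340.UpDatC340`;
# helper999, SPARE)

OFF-MAIN.  Complete proof, nothing assumed.  ADDITIVE (new names only, suffix `999`).

    upSplitC_of999 : H305.SigmaLocC305 K' → UD341.UpSplitC341 K K'       (VERBATIM)
    upSplitC999 (K K') : UD341.UpSplitC341 K K'                          (UNCONDITIONAL)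

`v` a finite place of `K` which has NOT exactly one place of `K'` over it.  `w₁` a place over
`v` (exists), `w₂ ≠ w₁` another one; `w j = σ⁻ʲ(w₁)`:

* `ovr`, `rel`, `ne`, `rat_i`, `val_i`: as in `exists_enum999` (`EnumCore.lean`); `e = f = 1`
  at every place over `v`, the completions are isomorphic (`T6.H116.instSplitC_h116`);
* `inj`: `σ⁻ᵃ` is injective on the places, and `ne`;
* `exh`: transitivity of the Galois group (`exists_iterate_sigPlace999`), `σ^l = 1`;
* `sig`: `SigmaLocC305 K'` gives `s : K'_{w_b} ≃ K'_{w_a}` over `σ` (`w_a = σ(w_b)`,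
  `b = a + 1` modulo `l`), and `i_a⁻¹ ∘ s ∘ i_b` is a continuous endomorphism of `K_v` which is
  the identity on `K`, so the identity;
* `iot`: `IsAdeleBase305.fin` and uniqueness (density of `K`, continuity).

The hypothesis `T6.T6Out` is not used.
-/

set_option autoImplicit false
set_option linter.deprecated false
set_option linter.style.haveILetI false
set_option linter.unusedVariables false
set_option linter.unusedSectionVars false

open AutomorphicForm IsDedekindDomain NumberField

namespace Fermat.Agent.LT.T7.H999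

open Fermat.Agent.LT.H556 Fermat.Agent.LT.H556.A0 Fermat.Agent.LT.T7 Fermat.Agent.LT.T7.H305
open Fermat.Agent.LT.T7.H340

variable {K K' : Type} [Field K] [NumberField K] [Field K'] [NumberField K'] [Algebra K K']

/-- `σ⁻¹(σ(w)) = w`. -/
theorem sigPlace_symm_sig999 (σ : K' ≃+* K') (w : HeightOneSpectrum (𝓞 K')) :
    sigPlace999 σ.symm (sigPlace999 σ w) = w := by
  have h := sigPlace_symm999 σ.symm w
  rw [RingEquiv.symm_symm] at h
  exact h

/-- The powers of the generator of the data as a `K`-automorphism. -/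
theorem galGen_pow_apply999 (D : CompData K K') (hD : IsCompData D) (n : ℕ) (y : K') :
    (galGen999 D hD ^ n) y = (D.s.σ ^ n) y := by
  induction n generalizing y with
  | zero => rfl
  | succ n ih =>
    rw [pow_succ, pow_succ]
    show (galGen999 D hD ^ n) (galGen999 D hD y) = (D.s.σ ^ n) (D.s.σ y)
    rw [ih]
    rfl

/-- `σ^l` acts trivially on the places. -/
theorem iterate_sigPlace_deg999 (D : CompData K K') (hD : IsCompData D)
    (w : HeightOneSpectrum (𝓞 K')) : (sigPlace999 D.s.σ)^[D.l] w = w := by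
  have h1 : galGen999 D hD ^ D.l = 1 := by
    apply AlgEquiv.ext
    intro x
    rw [galGen_pow_apply999, hD.cyc.pow_eq]
    rfl
  have h2 := sigPlace_pow999 (galGen999 D hD) D.l w
  rw [galGen_coe999, h1] at h2
  rw [← h2]
  apply HeightOneSpectrum.ext
  rw [← smul_asIdeal999, one_smul]

/-- `σ⁻ˡ` acts trivially on the places. -/
theorem iterate_symm_deg999 (D : CompData K K') (hD : IsCompData D)
    (w : HeightOneSpectrum (𝓞 K')) : (sigPlace999 D.s.σ.symm)^[D.l] w = w := by
  have hfg : Function.LeftInverse (sigPlace999 D.s.σ.symm) (sigPlace999 D.s.σ) :=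
    fun u => sigPlace_symm_sig999 D.s.σ u
  have h2 := (hfg.iterate D.l) w
  rw [iterate_sigPlace_deg999 D hD w] at h2
  exact h2

/-- Periodicity of the enumeration. -/
theorem iterate_symm_add_mul999 (D : CompData K K') (hD : IsCompData D)
    (w : HeightOneSpectrum (𝓞 K')) (q a : ℕ) :
    (sigPlace999 D.s.σ.symm)^[a + D.l * q] w = (sigPlace999 D.s.σ.symm)^[a] w := by
  induction q with
  | zero => rw [Nat.mul_zero, Nat.add_zero]
  | succ q ih =>
    rw [Nat.mul_succ, ← Nat.add_assoc, Function.iterate_add_apply, iterate_symm_deg999 D hD, ih]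

/-- **The local form of `σ_𝔸` in the coordinates of `K_v`**, at two places `u = σ(u')` over a
split place. -/
theorem sig_coord999 (D : CompData K K') (hD : IsCompData D) (hσ : SigmaLocC305 K')
    (v : HeightOneSpectrum (𝓞 K)) (u u' : HeightOneSpectrum (𝓞 K'))
    (hrel : T5.PlaceRel D.s u' u)
    (iu : v.adicCompletion K ≃+* u.adicCompletion K')
    (iu' : v.adicCompletion K ≃+* u'.adicCompletion K')
    (hu : ∀ x : K, iu (algebraMap K (v.adicCompletion K) x)
      = algebraMap K' (u.adicCompletion K') (algebraMap K K' x))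
    (hu' : ∀ x : K, iu' (algebraMap K (v.adicCompletion K) x)
      = algebraMap K' (u'.adicCompletion K') (algebraMap K K' x))
    (hv : ∀ x : v.adicCompletion K, Valued.v (iu x) = Valued.v x)
    (hv' : ∀ x : v.adicCompletion K, Valued.v (iu' x) = Valued.v x)
    (x : Adl K') :
    iu.symm (T5.finHom u (D.s.σA x)) = iu'.symm (T5.finHom u' x) := by
  obtain ⟨sw, hs1, hs2, hs3⟩ := (hσ D.s).1 u' u hrel
  rw [hs3]
  have hcs : Continuous (sw : u'.adicCompletion K' → u.adicCompletion K') :=
    continuous_of_valued_pow999 u' u (sw : u'.adicCompletion K' →+* u.adicCompletion K') 1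
      one_pos (fun z => by rw [pow_one]; exact hs2 z)
  have hcb : Continuous (iu' : v.adicCompletion K → u'.adicCompletion K') :=
    continuous_of_valued_pow999 v u' (iu' : v.adicCompletion K →+* u'.adicCompletion K') 1
      one_pos (fun z => by rw [pow_one]; exact hv' z)
  have hca : Continuous (iu.symm : u.adicCompletion K' → v.adicCompletion K) :=
    continuous_of_valued_pow999 u v (iu.symm : u.adicCompletion K' →+* v.adicCompletion K) 1
      one_pos (fun z => by
        rw [pow_one]
        have h := hv (iu.symm z)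
        rw [RingEquiv.apply_symm_apply] at h
        exact h.symm)
  have heq : (fun z : v.adicCompletion K => iu.symm (sw (iu' z)))
      = (fun z : v.adicCompletion K => z) :=
    eq_of_eqOn_rat999 v _ _ (hca.comp (hcs.comp hcb)) continuous_id (fun k => by
      show iu.symm (sw (iu' (algebraMap K (v.adicCompletion K) k)))
        = algebraMap K (v.adicCompletion K) k
      rw [hu', hs1, sigma_algebraMap999 hD, RingEquiv.symm_apply_eq, hu])
  have h := congrFun heq (iu'.symm (T5.finHom u' x))
  simp only [RingEquiv.apply_symm_apply] at h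
  exact h

/-- **The local form of `ι` in the coordinates of `K_v`**, at a place over a split place. -/
theorem iot_coord999 {D : CompData K K'} {ι : Adl K →+* Adl K'}
    (hι : IsAdeleBase305 D.s D.l ι)
    (v : HeightOneSpectrum (𝓞 K)) (u : HeightOneSpectrum (𝓞 K')) (hov : PlaceOver K K' v u)
    (iu : v.adicCompletion K ≃+* u.adicCompletion K')
    (hu : ∀ x : K, iu (algebraMap K (v.adicCompletion K) x)
      = algebraMap K' (u.adicCompletion K') (algebraMap K K' x))
    (hv : ∀ x : v.adicCompletion K, Valued.v (iu x) = Valued.v x)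
    (x : Adl K) : T5.finHom u (ι x) = iu (T5.finHom v x) := by
  obtain ⟨e, i', he, hi1, hi2, hi3⟩ := hι.fin v u hov
  rw [hi3]
  have hci' : Continuous i' := continuous_of_valued_pow999 v u i' e he hi2
  have hca : Continuous (iu : v.adicCompletion K → u.adicCompletion K') :=
    continuous_of_valued_pow999 v u (iu : v.adicCompletion K →+* u.adicCompletion K') 1
      one_pos (fun z => by rw [pow_one]; exact hv z)
  have heq : (i' : v.adicCompletion K → u.adicCompletion K') = iu :=
    eq_of_eqOn_rat999 v _ _ hci' hca (fun k => by rw [hi1, hu])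
  exact congrFun heq _

variable (K K')

/-- **LEAF UD.2 = UP-SPLIT** from `SigmaLocC305 K'`, VERBATIM. -/
theorem upSplitC_of999 (hσ : SigmaLocC305 K') :
    Fermat.Agent.LT.T7.UD341.UpSplitC341 K K' := by
  intro _ D hD hcyc ι hι v hnot
  haveI := hcyc.galois
  have hprime : (Module.finrank K K').Prime := by
    rw [hcyc.degree]
    exact hcyc.prime
  obtain ⟨w₁, hw₁⟩ := exists_placeOver999 (K' := K') v
  obtain ⟨w₂, hw₂, hne⟩ : ∃ w₂ : HeightOneSpectrum (𝓞 K'), PlaceOver K K' v w₂ ∧ w₁ ≠ w₂ := by
    by_contra hcon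
    push Not at hcon
    exact hnot ⟨w₁, hw₁, fun w' hw' => (hcon w' hw').symm⟩
  have hgf : Function.LeftInverse (sigPlace999 D.s.σ) (sigPlace999 D.s.σ.symm) :=
    fun u => sigPlace_symm999 D.s.σ u
  have hfg : Function.LeftInverse (sigPlace999 D.s.σ.symm) (sigPlace999 D.s.σ) :=
    fun u => sigPlace_symm_sig999 D.s.σ u
  have hover : ∀ j : ℕ, PlaceOver K K' v ((sigPlace999 D.s.σ.symm)^[j] w₁) :=
    fun j => placeOver_iterate_symmG999 hD hw₁ j
  have hiso : ∀ w : HeightOneSpectrum (𝓞 K'), PlaceOver K K' v w →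
      ∃ i : v.adicCompletion K ≃+* w.adicCompletion K',
        (∀ x : K, i (algebraMap K (v.adicCompletion K) x)
          = algebraMap K' (w.adicCompletion K') (algebraMap K K' x)) ∧
        ∀ x : v.adicCompletion K, Valued.v (i x) = Valued.v x := by
    intro w hw
    obtain ⟨w', hw', hww'⟩ : ∃ w' : HeightOneSpectrum (𝓞 K'), PlaceOver K K' v w' ∧ w ≠ w' := by
      by_cases h : w = w₁
      · exact ⟨w₂, hw₂, by rw [h]; exact hne⟩
      · exact ⟨w₁, hw₁, h⟩
    exact exists_iso_of_split999 hprime v w w' hw hw' hww'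
  choose i hi hiv using fun j : ℕ => hiso _ (hover j)
  have hrel : ∀ j : ℕ, T5.PlaceRel D.s ((sigPlace999 D.s.σ.symm)^[j + 1] w₁)
      ((sigPlace999 D.s.σ.symm)^[j] w₁) := by
    intro j
    have h : sigPlace999 D.s.σ ((sigPlace999 D.s.σ.symm)^[j + 1] w₁)
        = (sigPlace999 D.s.σ.symm)^[j] w₁ := by
      rw [Function.iterate_succ_apply']
      exact sigPlace_symm999 _ _
    have h0 := placeRel_sigPlace999 D.s ((sigPlace999 D.s.σ.symm)^[j + 1] w₁)
    rw [h] at h0
    exact h0
  have hne0 : ∀ j : ℕ, 0 < j → j < D.l → (sigPlace999 D.s.σ.symm)^[j] w₁ ≠ w₁ := by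
    intro j hj0 hjl heq
    have hfix : (sigPlace999 D.s.σ)^[j] w₁ = w₁ := by
      have := iterate_sig_iterate_symmG999 D.s.σ w₁ j
      rw [heq] at this
      exact this
    exact hne (eq_of_iterate_fixedG999 D hD hcyc hw₁ hw₂ j hj0 hjl hfix).symm
  have hper0 : (sigPlace999 D.s.σ.symm)^[D.l] w₁ = w₁ := iterate_symm_deg999 D hD w₁
  have hkey : ∀ a b : ℕ, a < b → b < D.l →
      (sigPlace999 D.s.σ.symm)^[a] w₁ ≠ (sigPlace999 D.s.σ.symm)^[b] w₁ := by
    intro a b hab hb heq
    have hb' : b = a + (b - a) := by omega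
    rw [hb', Function.iterate_add_apply] at heq
    have h1 := (hgf.iterate a).injective heq
    exact hne0 (b - a) (by omega) (by omega) h1.symm
  have hinj : ∀ a b : ℕ, a < D.l → b < D.l →
      (sigPlace999 D.s.σ.symm)^[a] w₁ = (sigPlace999 D.s.σ.symm)^[b] w₁ → a = b := by
    intro a b ha hb heq
    rcases Nat.lt_trichotomy a b with h | h | h
    · exact absurd heq (hkey a b h hb)
    · exact h
    · exact absurd heq.symm (hkey b a h ha)
  have hexh : ∀ w' : HeightOneSpectrum (𝓞 K'), PlaceOver K K' v w' →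
      ∃ a : ℕ, a < D.l ∧ w' = (sigPlace999 D.s.σ.symm)^[a] w₁ := by
    intro w' hw'
    obtain ⟨j, hj⟩ := exists_iterate_sigPlace999 D hD hcyc hw' hw₁
    have h1 : (sigPlace999 D.s.σ.symm)^[j] w₁ = w' := by
      rw [hj]
      exact (hfg.iterate j) w'
    refine ⟨j % D.l, Nat.mod_lt _ hcyc.prime.pos, ?_⟩
    rw [← h1]
    have h2 := iterate_symm_add_mul999 D hD w₁ (j / D.l) (j % D.l)
    rw [Nat.mod_add_div] at h2
    exact h2
  have hrelc : ∀ a : Fin D.l, T5.PlaceRel D.s
      ((sigPlace999 D.s.σ.symm)^[(cycSucc340 a).1] w₁) ((sigPlace999 D.s.σ.symm)^[a.1] w₁) := by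
    intro a
    have h1 : (cycSucc340 a).1 = (a.1 + 1) % D.l := rfl
    rw [h1]
    by_cases h : a.1 + 1 < D.l
    · rw [Nat.mod_eq_of_lt h]
      exact hrel a.1
    · have h2 : a.1 + 1 = D.l := by
        have := a.2
        omega
      have h3 := hrel a.1
      rw [h2, hper0] at h3
      rw [h2, Nat.mod_self]
      exact h3
  refine ⟨⟨fun j => (sigPlace999 D.s.σ.symm)^[j] w₁, i⟩, ?_⟩
  exact
    { pos := hcyc.prime.pos
      ovr := hover
      rel := hrel
      ne := fun j hj0 hjl => hne0 j hj0 hjl
      rat_i := hi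
      val_i := hiv
      inj := hinj
      exh := hexh
      sig := fun a x =>
        sig_coord999 D hD hσ v _ _ (hrelc a) (i a.1) (i (cycSucc340 a).1) (hi a.1)
          (hi (cycSucc340 a).1) (hiv a.1) (hiv (cycSucc340 a).1) x
      iot := fun a x => iot_coord999 hι v _ (hover a) (i a) (hi a) (hiv a) x }

/-- **LEAF UD.2 = UP-SPLIT**, VERBATIM, unconditional. -/
theorem upSplitC999 : Fermat.Agent.LT.T7.UD341.UpSplitC341 K K' :=
  upSplitC_of999 K K' (Fermat.Agent.LT.T7.H558.sigmaLocC558 (K := K'))

end Fermat.Agent.LT.T7.H999
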