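import Mathlib
import Fermat.Agent.LT.T7.B981.PairDatSpec

/-!
# Row LT, tower T7, leaf D.2 `B981.NormFrameC981` (fourth cut of helper981 of `DatC981`;
# helper999, SPARE of registry row 2980)

OFF-MAIN.  Complete proof, nothing assumed.  ADDITIVE (new names only, suffix `N999`).

    normFrameC999 (K K') : B981.NormFrameC981 K K'        (VERBATIM, UNCONDITIONAL)

`P` = the places under `P'`, `e v = ∑_{w ∈ P', w ∣ v} f_w e'_w`, `a₀ = N_{K'/K} a₀'`
(`Algebra.intNorm`), `α = N α'`.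

* `(a₀) = N((a₀')) = ∏_w N(w)^{e'_w}` (`Ideal.relNorm_singleton`), `N(w) = v^{f_w}`
  (`Ideal.relNorm_eq_pow_of_isMaximal`), `resDeg981 v w = f_w` (`Nat.log_pow`), and the product
  over `P'` is regrouped along the fibres of `w ↦ w ∩ 𝒪_K`.
* `a₀ ≡ 1 mod 𝔫`: `a₀ = ∏_σ σ a₀'` in `𝒪_{K'}` (`K'/K` Galois), `σ a₀' ≡ 1 mod 𝔫 𝒪_{K'}` (the
  ideal `𝔫 𝒪_{K'}` is stable), and `𝔫 𝒪_{K'} ∩ 𝒪_K = 𝔫` (faithfully flat).
* infinite places: `v(N α') = ∏_σ (σ • w₀)(α')`, and `ℓ` different places over `v` are the orbit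
  of `w₀` without repetition.  (`TotCplx K` and `ℓ ≠ 2` are not used.)
-/

set_option autoImplicit false
set_option linter.deprecated false
set_option linter.style.haveILetI false
set_option linter.unusedVariables false
set_option linter.unusedSectionVars false

open AutomorphicForm IsDedekindDomain NumberField

namespace Fermat.Agent.LT.T7.H999

open Fermat.Agent.LT.H556 Fermat.Agent.LT.H556.A0 Fermat.Agent.LT.T7
open Fermat.Agent.LT.T7.H305 Fermat.Agent.LT.T7.H893 Fermat.Agent.LT.T7.B981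

variable {K K' : Type} [Field K] [NumberField K] [Field K'] [NumberField K'] [Algebra K K']

/-! ## 1. Places over a place -/

theorem liesOver_of_placeOverN999 {v : HeightOneSpectrum (𝓞 K)} {w : HeightOneSpectrum (𝓞 K')}
    (h : PlaceOver K K' v w) : w.asIdeal.LiesOver v.asIdeal :=
  ⟨Ideal.ext fun x => by
    rw [Ideal.under_def, Ideal.mem_comap]
    exact h x _ rfl⟩

theorem placeOver_underN999 (w : HeightOneSpectrum (𝓞 K')) :
    PlaceOver K K' (w.under (𝓞 K)) w := by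
  intro x y hy
  have hy' : y = algebraMap (𝓞 K) (𝓞 K') x := RingOfIntegers.ext hy
  rw [hy']
  exact Iff.rfl

theorem eq_under_of_placeOverN999 {v : HeightOneSpectrum (𝓞 K)}
    {w : HeightOneSpectrum (𝓞 K')} (h : PlaceOver K K' v w) : v = w.under (𝓞 K) :=
  HeightOneSpectrum.ext (liesOver_of_placeOverN999 h).over

theorem mem_fibN999 {P' : Finset (HeightOneSpectrum (𝓞 K'))} {v : HeightOneSpectrum (𝓞 K)}
    {w : HeightOneSpectrum (𝓞 K')} :
    w ∈ fib981 (K := K) P' v ↔ w ∈ P' ∧ PlaceOver K K' v w := by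
  classical
  delta fib981
  exact Finset.mem_filter

theorem one_lt_absNormN999 (v : HeightOneSpectrum (𝓞 K)) : 1 < Ideal.absNorm v.asIdeal := by
  have h0 : Ideal.absNorm v.asIdeal ≠ 0 := by
    rw [Ne, Ideal.absNorm_eq_zero_iff]
    exact v.ne_bot
  have h1 : Ideal.absNorm v.asIdeal ≠ 1 := by
    rw [Ne, Ideal.absNorm_eq_one_iff]
    exact v.isPrime.ne_top
  omega

theorem resDeg_eqN999 {v : HeightOneSpectrum (𝓞 K)} {w : HeightOneSpectrum (𝓞 K')}
    (h : PlaceOver K K' v w) : resDeg981 v w = w.asIdeal.inertiaDeg (𝓞 K) := by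
  haveI := liesOver_of_placeOverN999 h
  haveI := v.isMaximal
  haveI := w.isMaximal
  show Nat.log (Ideal.absNorm v.asIdeal) (Ideal.absNorm w.asIdeal) = _
  rw [Ideal.absNorm_eq_pow_inertiaDeg'_of_liesOver w.asIdeal v.asIdeal v.isPrime v.ne_bot,
    Nat.log_pow (one_lt_absNormN999 v), Ideal.inertiaDeg'_eq_inertiaDeg]

theorem resDeg_posN999 {v : HeightOneSpectrum (𝓞 K)} {w : HeightOneSpectrum (𝓞 K')}
    (h : PlaceOver K K' v w) : 0 < resDeg981 v w := by
  haveI := liesOver_of_placeOverN999 h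
  haveI := v.isMaximal
  haveI := w.isMaximal
  rw [resDeg_eqN999 h]
  exact Ideal.inertiaDeg_pos w.asIdeal (𝓞 K)

theorem relNorm_placeN999 {v : HeightOneSpectrum (𝓞 K)} {w : HeightOneSpectrum (𝓞 K')}
    (h : PlaceOver K K' v w) :
    Ideal.relNorm (𝓞 K) w.asIdeal = v.asIdeal ^ resDeg981 v w := by
  haveI := liesOver_of_placeOverN999 h
  haveI := v.isMaximal
  haveI := w.isMaximal
  rw [resDeg_eqN999 h]
  exact Ideal.relNorm_eq_pow_of_isMaximal w.asIdeal v.asIdeal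

/-! ## 2. The norm of an integer -/

theorem coe_intNormN999 (y : 𝓞 K') :
    ((Algebra.intNorm (𝓞 K) (𝓞 K') y : 𝓞 K) : K) = Algebra.norm K (y : K') :=
  Algebra.algebraMap_intNorm (A := 𝓞 K) (K := K) (L := K') (B := 𝓞 K') y

/-- `N y = ∏_σ σ y` in `𝒪_{K'}`. -/
theorem algebraMap_intNormN999 [IsGalois K K'] (y : 𝓞 K') :
    algebraMap (𝓞 K) (𝓞 K') (Algebra.intNorm (𝓞 K) (𝓞 K') y)
      = ∏ σ : K' ≃ₐ[K] K', RingOfIntegers.mapRingEquiv (σ : K' ≃+* K') y := by
  apply RingOfIntegers.ext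
  have h1 : ((algebraMap (𝓞 K) (𝓞 K') (Algebra.intNorm (𝓞 K) (𝓞 K') y) : 𝓞 K') : K')
      = algebraMap K K' ((Algebra.intNorm (𝓞 K) (𝓞 K') y : 𝓞 K) : K) := rfl
  rw [h1, coe_intNormN999, Algebra.norm_eq_prod_automorphisms]
  have h2 : ((∏ σ : K' ≃ₐ[K] K', RingOfIntegers.mapRingEquiv (σ : K' ≃+* K') y : 𝓞 K') : K')
      = ∏ σ : K' ≃ₐ[K] K', ((RingOfIntegers.mapRingEquiv (σ : K' ≃+* K') y : 𝓞 K') : K') :=
    map_prod (algebraMap (𝓞 K') K') _ _
  rw [h2]
  rfl

/-- The ideal `𝔫 𝒪_{K'}` is stable under the Galois group. -/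
theorem map_stableN999 (𝔫 : Ideal (𝓞 K)) (σ : K' ≃ₐ[K] K') (y : 𝓞 K')
    (hy : y ∈ Ideal.map (algebraMap (𝓞 K) (𝓞 K')) 𝔫) :
    RingOfIntegers.mapRingEquiv (σ : K' ≃+* K') y ∈ Ideal.map (algebraMap (𝓞 K) (𝓞 K')) 𝔫 := by
  have hle : Ideal.map (algebraMap (𝓞 K) (𝓞 K')) 𝔫
      ≤ Ideal.comap (RingOfIntegers.mapRingEquiv (σ : K' ≃+* K') : 𝓞 K' →+* 𝓞 K')
          (Ideal.map (algebraMap (𝓞 K) (𝓞 K')) 𝔫) := by
    rw [Ideal.map_le_iff_le_comap]
    intro x hx
    rw [Ideal.mem_comap, Ideal.mem_comap]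
    have hfix : (RingOfIntegers.mapRingEquiv (σ : K' ≃+* K') : 𝓞 K' →+* 𝓞 K')
        (algebraMap (𝓞 K) (𝓞 K') x) = algebraMap (𝓞 K) (𝓞 K') x := by
      apply RingOfIntegers.ext
      exact σ.commutes (x : K)
    rw [hfix]
    exact Ideal.mem_map_of_mem _ hx
  exact hle hy

/-- `y ≡ 1 mod 𝔫 𝒪_{K'}` implies `N y ≡ 1 mod 𝔫`. -/
theorem intNorm_sub_one_memN999 [IsGalois K K'] (𝔫 : Ideal (𝓞 K)) (y : 𝓞 K')
    (hy : y - 1 ∈ Ideal.map (algebraMap (𝓞 K) (𝓞 K')) 𝔫) :
    Algebra.intNorm (𝓞 K) (𝓞 K') y - 1 ∈ 𝔫 := by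
  rw [← Ideal.comap_map_eq_self_of_faithfullyFlat (B := 𝓞 K') 𝔫, Ideal.mem_comap, map_sub,
    map_one, algebraMap_intNormN999]
  rw [← Ideal.Quotient.eq_zero_iff_mem, map_sub, map_one, map_prod, sub_eq_zero]
  apply Finset.prod_eq_one
  intro σ _
  rw [← sub_eq_zero, ← map_one (Ideal.Quotient.mk _), ← map_sub, Ideal.Quotient.eq_zero_iff_mem]
  have h := map_stableN999 𝔫 σ (y - 1) hy
  rwa [map_sub, map_one] at h

/-! ## 3. Infinite places -/

/-- `log v(N x) = ∑_j log w_j(x)` for `ℓ` different places `w_j` over `v`. -/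
theorem arch_normN999 [IsGalois K K'] (ℓ : ℕ) (hdeg : Module.finrank K K' = ℓ)
    (v : InfinitePlace K) (wen : ℕ → InfinitePlace K') (hen : IsEnum981 ℓ v wen)
    (x : K') (hx : x ≠ 0) :
    Real.log (v (Algebra.norm K x)) = ∑ j ∈ Finset.range ℓ, Real.log ((wen j) x) := by
  classical
  obtain ⟨hov, hinj⟩ := hen
  have hcard : Fintype.card (K' ≃ₐ[K] K') = ℓ := by
    rw [← Nat.card_eq_fintype_card, IsGalois.card_aut_eq_finrank K K', hdeg]
  have h1 : v (Algebra.norm K x) = ∏ σ : K' ≃ₐ[K] K', (σ • wen 0) x := by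
    rw [← hov 0, InfinitePlace.comap_apply, Algebra.norm_eq_prod_automorphisms, map_prod]
    refine Fintype.prod_equiv (Equiv.inv (K' ≃ₐ[K] K')) _ _ (fun σ => ?_)
    rw [Equiv.inv_apply, InfinitePlace.smul_apply]
    rfl
  have hTcard : ((Finset.range ℓ).image wen).card = ℓ := by
    rw [Finset.card_image_of_injOn, Finset.card_range]
    intro a ha b hb hab
    exact hinj a b (Finset.mem_range.1 ha) (Finset.mem_range.1 hb) hab
  have hScard : ((Finset.univ : Finset (K' ≃ₐ[K] K')).image (fun σ => σ • wen 0)).card ≤ ℓ := by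
    calc ((Finset.univ : Finset (K' ≃ₐ[K] K')).image (fun σ => σ • wen 0)).card
        ≤ (Finset.univ : Finset (K' ≃ₐ[K] K')).card := Finset.card_image_le
      _ = ℓ := by rw [Finset.card_univ, hcard]
  have hTS : (Finset.range ℓ).image wen
      ⊆ (Finset.univ : Finset (K' ≃ₐ[K] K')).image (fun σ => σ • wen 0) := by
    intro u hu
    obtain ⟨j, -, rfl⟩ := Finset.mem_image.1 hu
    obtain ⟨σ, hσ⟩ := InfinitePlace.exists_smul_eq_of_comap_eq
      (show (wen 0).comap (algebraMap K K') = (wen j).comap (algebraMap K K') by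
        rw [hov 0, hov j])
    exact Finset.mem_image.2 ⟨σ, Finset.mem_univ _, hσ⟩
  have hEq : (Finset.range ℓ).image wen
      = (Finset.univ : Finset (K' ≃ₐ[K] K')).image (fun σ => σ • wen 0) :=
    Finset.eq_of_subset_of_card_le hTS (by rw [hTcard]; exact hScard)
  have hoinj : Function.Injective (fun σ : K' ≃ₐ[K] K' => σ • wen 0) := by
    have hc : ((Finset.univ : Finset (K' ≃ₐ[K] K')).image (fun σ => σ • wen 0)).card
        = (Finset.univ : Finset (K' ≃ₐ[K] K')).card := by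
      rw [← hEq, hTcard, Finset.card_univ, hcard]
    have hi := Finset.card_image_iff.1 hc
    intro a b hab
    exact hi (Finset.mem_coe.2 (Finset.mem_univ a)) (Finset.mem_coe.2 (Finset.mem_univ b)) hab
  have h2 : ∏ σ : K' ≃ₐ[K] K', (σ • wen 0) x = ∏ j ∈ Finset.range ℓ, (wen j) x := by
    calc ∏ σ : K' ≃ₐ[K] K', (σ • wen 0) x
        = ∏ u ∈ (Finset.univ : Finset (K' ≃ₐ[K] K')).image (fun σ => σ • wen 0), u x := by
          rw [Finset.prod_image (fun a _ b _ hab => hoinj hab)]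
      _ = ∏ u ∈ (Finset.range ℓ).image wen, u x := by rw [hEq]
      _ = ∏ j ∈ Finset.range ℓ, (wen j) x := by
          rw [Finset.prod_image (fun a ha b hb hab =>
            hinj a b (Finset.mem_range.1 ha) (Finset.mem_range.1 hb) hab)]
  rw [h1, h2, Real.log_prod]
  intro j _
  exact (map_ne_zero (wen j)).2 hx

/-! ## 4. The leaf -/

variable (K K')

/-- **LEAF D.2 = NORM-FRAME**, VERBATIM, unconditional. -/
theorem normFrameC999 : Fermat.Agent.LT.T7.B981.NormFrameC981 K K' := by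
  intro ℓ hcyc _ _ 𝔫 P' e' a₀' α' h𝔫 hF
  haveI := hcyc.galois
  classical
  have hmemP : ∀ v : HeightOneSpectrum (𝓞 K),
      v ∈ P'.image (fun w : HeightOneSpectrum (𝓞 K') => w.under (𝓞 K))
        ↔ ∃ w ∈ P', PlaceOver K K' v w := by
    intro v
    rw [Finset.mem_image]
    constructor
    · rintro ⟨w, hw, rfl⟩
      exact ⟨w, hw, placeOver_underN999 w⟩
    · rintro ⟨w, hw, hov⟩
      exact ⟨w, hw, (eq_under_of_placeOverN999 hov).symm⟩
  refine ⟨P'.image (fun w : HeightOneSpectrum (𝓞 K') => w.under (𝓞 K)),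
    fun v => ∑ w ∈ fib981 (K := K) P' v, resDeg981 v w * e' w,
    Algebra.intNorm (𝓞 K) (𝓞 K') a₀', Units.map (Algebra.norm K : K' →* K) α',
    ⟨h𝔫, hF.nonempty.image _, ?_, ?_, ?_, ?_, ?_⟩, hmemP, fun v _ => rfl, ?_⟩
  · -- `v ∤ 𝔫`
    intro v hv hdvd
    obtain ⟨w, hw, rfl⟩ := Finset.mem_image.1 hv
    apply hF.prime w hw
    rw [Ideal.dvd_iff_le] at hdvd ⊢
    show Ideal.map (algebraMap (𝓞 K) (𝓞 K')) 𝔫 ≤ w.asIdeal
    rw [Ideal.map_le_iff_le_comap]
    exact hdvd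
  · -- `e v > 0`
    intro v hv
    obtain ⟨w, hw, hov⟩ := (hmemP v).1 hv
    have hle : resDeg981 v w * e' w ≤ ∑ w ∈ fib981 (K := K) P' v, resDeg981 v w * e' w :=
      Finset.single_le_sum (f := fun w => resDeg981 v w * e' w) (fun _ _ => Nat.zero_le _)
        (mem_fibN999.2 ⟨hw, hov⟩)
    exact lt_of_lt_of_le (Nat.mul_pos (resDeg_posN999 hov) (hF.pos w hw)) hle
  · -- `(a₀) = ∏ v ^ e v`
    rw [← Ideal.relNorm_singleton (𝓞 K) a₀', hF.span, map_prod,
      ← Finset.prod_fiberwise_of_maps_to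
        (g := fun w : HeightOneSpectrum (𝓞 K') => w.under (𝓞 K))
        (t := P'.image (fun w : HeightOneSpectrum (𝓞 K') => w.under (𝓞 K)))
        (fun w hw => Finset.mem_image_of_mem _ hw)]
    refine Finset.prod_congr rfl (fun v hv => ?_)
    rw [← Finset.prod_pow_eq_pow_sum]
    apply Finset.prod_congr
    · ext w
      rw [Finset.mem_filter, mem_fibN999]
      constructor
      · rintro ⟨hw, rfl⟩
        exact ⟨hw, placeOver_underN999 w⟩
      · rintro ⟨hw, hov⟩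
        exact ⟨hw, (eq_under_of_placeOverN999 hov).symm⟩
    · intro w hw
      rw [mem_fibN999] at hw
      rw [map_pow, relNorm_placeN999 hw.2, ← pow_mul]
  · -- `a₀ ≡ 1 mod 𝔫`
    exact intNorm_sub_one_memN999 𝔫 a₀' hF.cong
  · -- `α = a₀`
    show Algebra.norm K (α' : K') = algebraMap (𝓞 K) K (Algebra.intNorm (𝓞 K) (𝓞 K') a₀')
    rw [hF.coe]
    exact (coe_intNormN999 a₀').symm
  · -- infinite places
    intro v wen hen
    exact arch_normN999 ℓ hcyc.degree v wen hen (α' : K') α'.ne_zero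

end Fermat.Agent.LT.T7.H999
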